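import Mathlib

/-!
# Row 37 (S38/S43), Ihara avoidance: a uniform nilpotency bound (helper901)

`maximalIdeal_pow_card_le_ker` : a ring homomorphism from a local ring `A` to a finite ring `F`
kills `𝔪_A ^ (Nat.card F)`.  (Uniform in the homomorphism: this is what makes limits of
homomorphisms `A → M_d(S ⧸ I ^ n)` along an ultrafilter compatible with limits in `A`.)
-/

set_option autoImplicit false
set_option linter.unnecessarySimpa false
set_option linter.style.haveILetI false

namespace Fermat.Agent.S38.H901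

open IsLocalRing

/-- In a finite commutative ring `Q`, an ideal `𝔫` contained in the Jacobson radical satisfies
`𝔫 ^ (Nat.card Q) = ⊥`. -/
theorem pow_card_eq_bot_of_le_jacobson {Q : Type*} [CommRing Q] [Finite Q] (𝔫 : Ideal Q)
    (h𝔫 : 𝔫 ≤ Ideal.jacobson ⊥) : 𝔫 ^ (Nat.card Q) = ⊥ := by
  classical
  have key : ∀ j : ℕ, 𝔫 ^ j = ⊥ ∨ j + Nat.card (↥(𝔫 ^ j)) ≤ Nat.card Q := by
    intro j
    induction j with
    | zero =>
      right
      rw [pow_zero, Ideal.one_eq_top, zero_add]
      exact Nat.card_le_card_of_injective (fun x : (⊤ : Ideal Q) => (x : Q))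
        Subtype.val_injective
    | succ j ih =>
      rcases ih with h0 | hcard
      · left
        rw [pow_succ, h0, Ideal.bot_mul]
      · by_cases hb : 𝔫 ^ (j + 1) = ⊥
        · exact Or.inl hb
        · right
          have hle : 𝔫 ^ (j + 1) ≤ 𝔫 ^ j := Ideal.pow_le_pow_right (Nat.le_succ j)
          have hne : 𝔫 ^ (j + 1) ≠ 𝔫 ^ j := by
            intro heq
            apply hb
            have hfg : (𝔫 ^ j : Submodule Q Q).FG := by
              haveI : IsNoetherianRing Q := inferInstance
              exact IsNoetherian.noetherian _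
            have hN : 𝔫 ^ j ≤ 𝔫 • (𝔫 ^ j : Submodule Q Q) := by
              rw [smul_eq_mul, ← pow_succ', heq]
            have := Submodule.eq_bot_of_le_smul_of_le_jacobson_bot 𝔫 (𝔫 ^ j) hfg hN h𝔫
            rw [heq]
            exact this
          have hlt : 𝔫 ^ (j + 1) < 𝔫 ^ j := lt_of_le_of_ne hle hne
          have hss : ((𝔫 ^ (j + 1) : Ideal Q) : Set Q) ⊂ ((𝔫 ^ j : Ideal Q) : Set Q) := by
            exact_mod_cast hlt
          have hc : Set.ncard ((𝔫 ^ (j + 1) : Ideal Q) : Set Q) <
              Set.ncard ((𝔫 ^ j : Ideal Q) : Set Q) :=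
            Set.ncard_lt_ncard hss (Set.toFinite _)
          have e1 : Nat.card (↥(𝔫 ^ (j + 1))) = Set.ncard ((𝔫 ^ (j + 1) : Ideal Q) : Set Q) := rfl
          have e2 : Nat.card (↥(𝔫 ^ j)) = Set.ncard ((𝔫 ^ j : Ideal Q) : Set Q) := rfl
          omega
  rcases key (Nat.card Q) with h | h
  · exact h
  · exfalso
    have hpos : 0 < Nat.card (↥(𝔫 ^ (Nat.card Q))) := Nat.card_pos
    omega

/-- A ring homomorphism from a local ring to a finite ring kills `𝔪 ^ (Nat.card F)`. -/
theorem maximalIdeal_pow_card_le_ker {A F : Type*} [CommRing A] [IsLocalRing A] [Ring F]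
    [Finite F] (ρ : A →+* F) : maximalIdeal A ^ (Nat.card F) ≤ RingHom.ker ρ := by
  classical
  set I := RingHom.ker ρ with hI
  -- the quotient `A ⧸ I` is finite
  haveI : Finite (A ⧸ I) :=
    Finite.of_injective (RingHom.kerLift ρ) (RingHom.kerLift_injective ρ)
  have hcard : Nat.card (A ⧸ I) ≤ Nat.card F :=
    Nat.card_le_card_of_injective (RingHom.kerLift ρ) (RingHom.kerLift_injective ρ)
  set 𝔫 : Ideal (A ⧸ I) := (maximalIdeal A).map (Ideal.Quotient.mk I) with h𝔫
  have hjac : 𝔫 ≤ Ideal.jacobson ⊥ := by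
    rw [h𝔫, Ideal.map_le_iff_le_comap]
    intro x hx
    rw [Ideal.mem_comap, Ideal.mem_jacobson_bot]
    intro y
    obtain ⟨y, rfl⟩ := Ideal.Quotient.mk_surjective y
    have hxy : x * y ∈ maximalIdeal A := Ideal.mul_mem_right _ _ hx
    have hu : IsUnit (x * y + 1) := by
      by_contra hnu
      have h1 : x * y + 1 ∈ maximalIdeal A := (IsLocalRing.mem_maximalIdeal _).mpr hnu
      have h2 : (1 : A) ∈ maximalIdeal A := by
        have := Ideal.sub_mem _ h1 hxy
        simpa using this
      exact (Ideal.ne_top_iff_one _).mp (IsLocalRing.maximalIdeal.isMaximal A).ne_top h2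
    have := hu.map (Ideal.Quotient.mk I)
    simpa using this
  have hbot := pow_card_eq_bot_of_le_jacobson 𝔫 hjac
  have h1 : maximalIdeal A ^ (Nat.card (A ⧸ I)) ≤ I := by
    intro a ha
    have h2 : Ideal.Quotient.mk I a ∈ 𝔫 ^ (Nat.card (A ⧸ I)) := by
      rw [h𝔫, ← Ideal.map_pow]
      exact Ideal.mem_map_of_mem _ ha
    rw [hbot] at h2
    exact Ideal.Quotient.eq_zero_iff_mem.mp h2
  exact (Ideal.pow_le_pow_right hcard).trans h1

end Fermat.Agent.S38.H901
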