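import Mathlib

/-!
# Row 37 (S38/S43), Ihara avoidance, "single-sided" commutative-algebra core (helper901)

Only the `χ`-side module has to be patched.  Inputs (for the patched `χ`-module `M` over
`R = R^χ_loc⟦x⟧`, finite free over `S = S_∞`):

* `s • M ⊆ lam • M` (`s = tr Φ - ε(1+q)` or `s = q (tr Φ)² - (1+q)² det Φ`): inherited from the
  finite levels, where `s` kills the trivial-character module `M¹_n` (all forms are `q`-new
  Steinberg under the contradiction hypothesis) and `M¹_n / lam ≃ M^χ_n / lam`;
* a point `x : R → V` (valuation ring) in the support of `M` with `x lam ∤ x s`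
  (the explicit point `Σ = diag(ζ, ζ⁻¹)`, `Φ = ε·diag(α, q/α)`, `v(α - 1) = v(lam)/3`).

Then `False`.  No ring `R¹`, no second patched module, no un-patching.

Main results (Mathlib only):
* `dvd_of_monic_rel` : in a valuation ring, `a^n + ∑_{k<n} l^(n-k) e_k a^k = 0 → l ∣ a`;
* `map_dvd_of_smul_le` : Cayley–Hamilton core, `x lam ∣ x s` at every point of the support;
* `annihilator_eq_bot_of_dim_le` : faithfulness from the dimension count
  (`R` domain, `dim R ≤ dim S < ∞`, `M` finite and faithful over noetherian `S`);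
* `ia_single_false` : the contradiction.
-/

set_option autoImplicit false
set_option linter.unnecessarySimpa false
set_option linter.style.haveILetI false

namespace Fermat.Agent.S38.H901

open Polynomial

/-- In a valuation ring, a monic relation `a^n + ∑_{k<n} l^(n-k) e_k a^k = 0` forces `l ∣ a`. -/
theorem dvd_of_monic_rel {V : Type*} [CommRing V] [IsDomain V] [ValuationRing V]
    (l a : V) (n : ℕ) (e : ℕ → V)
    (h : a ^ n + ∑ k ∈ Finset.range n, l ^ (n - k) * e k * a ^ k = 0) : l ∣ a := by
  rcases ValuationRing.dvd_total l a with h1 | ⟨t, ht⟩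
  · exact h1
  · by_cases hu : IsUnit t
    · obtain ⟨u, rfl⟩ := hu
      refine ⟨((u⁻¹ : Vˣ) : V), ?_⟩
      rw [ht, mul_assoc, Units.mul_inv, mul_one]
    · have key : a ^ n * (1 + ∑ k ∈ Finset.range n, t ^ (n - k) * e k) = 0 := by
        rw [mul_add, mul_one, Finset.mul_sum, ← h]
        congr 1
        apply Finset.sum_congr rfl
        intro k hk
        have hk' := Finset.mem_range.mp hk
        have e1 : a ^ n = a ^ (n - k) * a ^ k := by
          rw [← pow_add]; congr 1; omega
        rw [ht, mul_pow, e1]; ring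
      have hmem : (∑ k ∈ Finset.range n, t ^ (n - k) * e k) ∈ IsLocalRing.maximalIdeal V := by
        apply Ideal.sum_mem
        intro k hk
        have hk' := Finset.mem_range.mp hk
        apply Ideal.mul_mem_right
        apply Ideal.pow_mem_of_mem _ ((IsLocalRing.mem_maximalIdeal t).mpr hu)
        omega
      have hunit : IsUnit (1 + ∑ k ∈ Finset.range n, t ^ (n - k) * e k) := by
        by_contra hnu
        have h2 : (1 + ∑ k ∈ Finset.range n, t ^ (n - k) * e k) ∈ IsLocalRing.maximalIdeal V :=
          (IsLocalRing.mem_maximalIdeal _).mpr hnu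
        have h3 : (1 : V) ∈ IsLocalRing.maximalIdeal V := by
          have := Ideal.sub_mem _ h2 hmem
          simpa using this
        exact (Ideal.ne_top_iff_one _).mp (IsLocalRing.maximalIdeal.isMaximal V).ne_top h3
      have h4 : a ^ n = 0 := by
        rcases mul_eq_zero.mp key with h5 | h5
        · exact h5
        · exact absurd h5 hunit.ne_zero
      have h6 : a = 0 := pow_eq_zero_iff (n := n) (by
        rintro rfl
        simp at h4) |>.mp h4
      exact ⟨0, by rw [h6, mul_zero]⟩

/-- **Cayley–Hamilton core.**  If `s • M ⊆ lam • M` for a finite `R`-module `M`, then at every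
point `x : R → V` of the support of `M` (`Ann M ≤ ker x`) with values in a valuation ring,
`x lam ∣ x s`. -/
theorem map_dvd_of_smul_le {R : Type*} [CommRing R] {M : Type*} [AddCommGroup M] [Module R M]
    [Module.Finite R M] (lam s : R) (hs : ∀ m : M, ∃ m' : M, s • m = lam • m')
    {V : Type*} [CommRing V] [IsDomain V] [ValuationRing V] (x : R →+* V)
    (hx : Module.annihilator R M ≤ RingHom.ker x) : x lam ∣ x s := by
  classical
  have hrange : LinearMap.range (algebraMap R (Module.End R M) s) ≤
      (Ideal.span {lam} : Ideal R) • (⊤ : Submodule R M) := by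
    rintro _ ⟨m, rfl⟩
    obtain ⟨m', hm'⟩ := hs m
    rw [Module.algebraMap_end_apply, hm']
    exact Submodule.smul_mem_smul (Ideal.mem_span_singleton_self lam) Submodule.mem_top
  obtain ⟨p, hmon, -, hcoeff, hp⟩ :=
    LinearMap.exists_monic_and_natDegree_eq_and_coeff_mem_pow_and_aeval_eq_zero R
      (algebraMap R (Module.End R M) s) (Ideal.span {lam}) hrange
  have hann : p.eval s ∈ Module.annihilator R M := by
    rw [Module.mem_annihilator]
    intro m
    have h1 : aeval (algebraMap R (Module.End R M) s) p = algebraMap R (Module.End R M) (p.eval s) := by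
      rw [Polynomial.aeval_algebraMap_apply, Polynomial.coe_aeval_eq_eval]
    have h2 := congrArg (fun f : Module.End R M => f m) hp
    simp only [h1, Module.algebraMap_end_apply, LinearMap.zero_apply] at h2
    exact h2
  have hzero : x (p.eval s) = 0 := hx hann
  -- coefficients
  have hc : ∀ k, ∃ d : R, p.coeff k = lam ^ (p.natDegree - k) * d := by
    intro k
    have := hcoeff k
    rw [Ideal.span_singleton_pow, Ideal.mem_span_singleton'] at this
    obtain ⟨d, hd⟩ := this
    exact ⟨d, by rw [← hd, mul_comm]⟩
  choose d hd using hc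
  apply dvd_of_monic_rel (x lam) (x s) p.natDegree (fun k => x (d k))
  rw [Polynomial.eval_eq_sum_range, Finset.sum_range_succ, map_add, map_sum] at hzero
  rw [add_comm]
  rw [hmon.coeff_natDegree, one_mul, map_pow] at hzero
  rw [← hzero]
  congr 1
  apply Finset.sum_congr rfl
  intro k _
  rw [hd k]
  simp only [map_mul, map_pow]


/-- **Cayley–Hamilton core, ideal form.**  If `s • M ⊆ lam • M` for a finite `R`-module `M`,
then a power of `s` lies in `(lam) + Ann M`. -/
theorem exists_pow_mem_sup_annihilator {R : Type*} [CommRing R] {M : Type*} [AddCommGroup M]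
    [Module R M] [Module.Finite R M] (lam s : R) (hs : ∀ m : M, ∃ m' : M, s • m = lam • m') :
    ∃ n : ℕ, s ^ n ∈ Ideal.span {lam} ⊔ Module.annihilator R M := by
  classical
  have hrange : LinearMap.range (algebraMap R (Module.End R M) s) ≤
      (Ideal.span {lam} : Ideal R) • (⊤ : Submodule R M) := by
    rintro _ ⟨m, rfl⟩
    obtain ⟨m', hm'⟩ := hs m
    rw [Module.algebraMap_end_apply, hm']
    exact Submodule.smul_mem_smul (Ideal.mem_span_singleton_self lam) Submodule.mem_top
  obtain ⟨p, hmon, -, hcoeff, hp⟩ :=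
    LinearMap.exists_monic_and_natDegree_eq_and_coeff_mem_pow_and_aeval_eq_zero R
      (algebraMap R (Module.End R M) s) (Ideal.span {lam}) hrange
  have hann : p.eval s ∈ Module.annihilator R M := by
    rw [Module.mem_annihilator]
    intro m
    have h1 : aeval (algebraMap R (Module.End R M) s) p =
        algebraMap R (Module.End R M) (p.eval s) := by
      rw [Polynomial.aeval_algebraMap_apply, Polynomial.coe_aeval_eq_eval]
    have h2 := congrArg (fun f : Module.End R M => f m) hp
    simp only [h1, Module.algebraMap_end_apply, LinearMap.zero_apply] at h2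
    exact h2
  refine ⟨p.natDegree, ?_⟩
  have hsum : s ^ p.natDegree =
      p.eval s - ∑ k ∈ Finset.range p.natDegree, p.coeff k * s ^ k := by
    rw [Polynomial.eval_eq_sum_range, Finset.sum_range_succ, hmon.coeff_natDegree, one_mul]
    ring
  rw [hsum]
  apply Ideal.sub_mem
  · exact Ideal.mem_sup_right hann
  · apply Ideal.sum_mem
    intro k hk
    have hk' := Finset.mem_range.mp hk
    apply Ideal.mem_sup_left
    apply Ideal.mul_mem_right
    have h1 := hcoeff k
    have h2 : (Ideal.span {lam} : Ideal R) ^ (p.natDegree - k) ≤ Ideal.span {lam} := by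
      have hpos : p.natDegree - k ≠ 0 := by omega
      exact Ideal.pow_le_self hpos
    exact h2 h1

/-! ### Faithfulness from the dimension count -/

open nonZeroDivisors in
/-- Going up: an injective integral extension does not lower the Krull dimension. -/
theorem ringKrullDim_le_of_isIntegral_of_injective {S B : Type*} [CommRing S] [CommRing B]
    [Algebra S B] [Algebra.IsIntegral S B] (hinj : Function.Injective (algebraMap S B)) :
    ringKrullDim S ≤ ringKrullDim B := by
  rw [ringKrullDim, ringKrullDim, Order.krullDim, Order.krullDim]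
  apply iSup_le
  intro l
  have hker : (⊥ : Ideal B).comap (algebraMap S B) ≤ (RelSeries.head l).asIdeal := by
    rw [← RingHom.ker_eq_comap_bot, (RingHom.injective_iff_ker_eq_bot _).mp hinj]
    exact bot_le
  obtain ⟨P, -, hP, hPc⟩ :=
    Ideal.exists_ideal_over_prime_of_isIntegral (RelSeries.head l).asIdeal (⊥ : Ideal B) hker
  haveI := hP
  haveI : P.LiesOver (RelSeries.head l).asIdeal := ⟨hPc.symm⟩
  obtain ⟨L, hlen, -, -⟩ := Ideal.exists_ltSeries_of_hasGoingUp l P
  rw [← hlen]
  exact le_iSup (fun L : LTSeries (PrimeSpectrum B) => (L.length : WithBot ℕ∞)) L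

/-- Every element of `R` is integral over `S` modulo the annihilator of an `S`-finite module. -/
theorem exists_monic_aeval_mem_annihilator {S R M : Type*} [CommRing S] [CommRing R]
    [Algebra S R] [AddCommGroup M] [Module S M] [Module R M] [IsScalarTower S R M]
    [Module.Finite S M] (r : R) :
    ∃ p : S[X], p.Monic ∧ aeval r p ∈ Module.annihilator R M := by
  classical
  let f : Module.End S M :=
    { toFun := fun m => r • m
      map_add' := fun a b => smul_add r a b
      map_smul' := fun a m => by
        simp only [RingHom.id_apply]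
        exact smul_comm r a m }
  obtain ⟨p, hmon, -, hp⟩ := LinearMap.exists_monic_and_natDegree_eq_and_aeval_eq_zero S f
  refine ⟨p, hmon, ?_⟩
  rw [Module.mem_annihilator]
  intro m
  have key : ∀ (q : S[X]) (m : M), (aeval r q) • m = (aeval f q) m := by
    intro q
    induction q using Polynomial.induction_on' with
    | add a b ha hb =>
      intro m
      rw [map_add, map_add, add_smul, ha, hb, LinearMap.add_apply]
    | monomial n a =>
      intro m
      rw [Polynomial.aeval_monomial, Polynomial.aeval_monomial]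
      rw [Module.End.mul_apply, Module.algebraMap_end_apply]
      have hpow : ∀ (k : ℕ) (m : M), (f ^ k) m = r ^ k • m := by
        intro k
        induction k with
        | zero => intro m; simp
        | succ k ih =>
          intro m
          rw [pow_succ, Module.End.mul_apply, ih, pow_succ, mul_smul]
          rfl
      rw [hpow, mul_smul, algebraMap_smul]
  rw [key, hp, LinearMap.zero_apply]

/-- **Support lemma.**  `S` a domain of finite Krull dimension, `M` an `S`-finite module on which
`S` acts faithfully, with a compatible `R`-action; `P₀` a prime of `R` contained in every prime of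
`R` lying over `0` of `S` (e.g. `P₀ = ⊥` for a domain `R`; or the unique characteristic-zero
component), with `dim R/P₀ ≤ dim S`.  Then `Ann_R M ≤ P₀`. -/
theorem annihilator_le_of_dim_le {S R M : Type*} [CommRing S] [IsDomain S] [CommRing R]
    [Algebra S R] [AddCommGroup M] [Module S M] [Module R M] [IsScalarTower S R M]
    [Module.Finite S M] (hfaith : ∀ a : S, (∀ m : M, a • m = 0) → a = 0)
    (P₀ : Ideal R) [P₀.IsPrime]
    (hP₀ : ∀ P : Ideal R, P.IsPrime → P.comap (algebraMap S R) = ⊥ → P₀ ≤ P)
    (hdim : ringKrullDim (R ⧸ P₀) ≤ ringKrullDim S) (hfin : ringKrullDim S < ⊤) :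
    Module.annihilator R M ≤ P₀ := by
  classical
  set I := Module.annihilator R M with hI
  -- `R ⧸ I` is integral over `S`
  haveI hint : Algebra.IsIntegral S (R ⧸ I) := by
    refine ⟨fun t => ?_⟩
    obtain ⟨r, rfl⟩ := Ideal.Quotient.mk_surjective t
    obtain ⟨p, hmon, hp⟩ := exists_monic_aeval_mem_annihilator (S := S) (M := M) r
    refine ⟨p, hmon, ?_⟩
    have h1 : Polynomial.eval₂ (algebraMap S (R ⧸ I)) (Ideal.Quotient.mk I r) p =
        Ideal.Quotient.mk I (aeval r p) := by
      rw [Polynomial.aeval_def, Polynomial.hom_eval₂]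
      rfl
    rw [h1]
    exact Ideal.Quotient.eq_zero_iff_mem.mpr hp
  have hinj : Function.Injective (algebraMap S (R ⧸ I)) := by
    rw [injective_iff_map_eq_zero]
    intro a ha
    apply hfaith
    intro m
    have h2 : algebraMap S R a ∈ I := by
      have : algebraMap S (R ⧸ I) a = Ideal.Quotient.mk I (algebraMap S R a) := rfl
      rw [this] at ha
      exact Ideal.Quotient.eq_zero_iff_mem.mp ha
    have h3 := (Module.mem_annihilator.mp h2) m
    rwa [algebraMap_smul] at h3
  -- a prime of `R ⧸ I` over `0`
  have hker : (⊥ : Ideal (R ⧸ I)).comap (algebraMap S (R ⧸ I)) ≤ (⊥ : Ideal S) := by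
    rw [← RingHom.ker_eq_comap_bot, (RingHom.injective_iff_ker_eq_bot _).mp hinj]
  obtain ⟨Q, -, hQ, hQc⟩ :=
    Ideal.exists_ideal_over_prime_of_isIntegral (⊥ : Ideal S) (⊥ : Ideal (R ⧸ I)) hker
  haveI := hQ
  set P : Ideal R := Q.comap (Ideal.Quotient.mk I) with hPdef
  haveI hPprime : P.IsPrime := Ideal.comap_isPrime _ _
  have hIP : I ≤ P := by
    intro a ha
    rw [hPdef, Ideal.mem_comap, Ideal.Quotient.eq_zero_iff_mem.mpr ha]
    exact Q.zero_mem
  have hPS : P.comap (algebraMap S R) = ⊥ := by
    rw [hPdef, Ideal.comap_comap]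
    exact hQc
  have hP₀P : P₀ ≤ P := hP₀ P hPprime hPS
  -- `R ⧸ P` is integral over `S` and `S → R ⧸ P` is injective
  haveI hint' : Algebra.IsIntegral S (R ⧸ P) := by
    refine ⟨fun t => ?_⟩
    obtain ⟨r, rfl⟩ := Ideal.Quotient.mk_surjective t
    obtain ⟨p, hmon, hp⟩ := exists_monic_aeval_mem_annihilator (S := S) (M := M) r
    refine ⟨p, hmon, ?_⟩
    have h1 : Polynomial.eval₂ (algebraMap S (R ⧸ P)) (Ideal.Quotient.mk P r) p =
        Ideal.Quotient.mk P (aeval r p) := by
      rw [Polynomial.aeval_def, Polynomial.hom_eval₂]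
      rfl
    rw [h1]
    exact Ideal.Quotient.eq_zero_iff_mem.mpr (hIP hp)
  have hinj' : Function.Injective (algebraMap S (R ⧸ P)) := by
    rw [injective_iff_map_eq_zero]
    intro a ha
    have h2 : algebraMap S R a ∈ P := by
      have : algebraMap S (R ⧸ P) a = Ideal.Quotient.mk P (algebraMap S R a) := rfl
      rw [this] at ha
      exact Ideal.Quotient.eq_zero_iff_mem.mp ha
    have h3 : a ∈ P.comap (algebraMap S R) := h2
    rw [hPS] at h3
    exact h3
  have hd1 : ringKrullDim S ≤ ringKrullDim (R ⧸ P) :=
    ringKrullDim_le_of_isIntegral_of_injective hinj'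
  -- if `P₀ < P` then `dim R/P + 1 ≤ dim R/P₀`
  by_contra hcon
  have hne : P₀ ≠ P := by
    rintro rfl
    exact hcon hIP
  obtain ⟨a, haP, haP₀⟩ : ∃ a, a ∈ P ∧ a ∉ P₀ := by
    by_contra h
    push Not at h
    exact hne (le_antisymm hP₀P (fun a ha => h a ha))
  have hd2 : ringKrullDim (R ⧸ P) + 1 ≤ ringKrullDim (R ⧸ P₀) := by
    refine ringKrullDim_succ_le_of_surjective (Ideal.Quotient.factor hP₀P)
      (Ideal.Quotient.factor_surjective hP₀P) (r := Ideal.Quotient.mk P₀ a) ?_ ?_
    · apply mem_nonZeroDivisors_of_ne_zero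
      intro h0
      exact haP₀ (Ideal.Quotient.eq_zero_iff_mem.mp h0)
    · rw [Ideal.Quotient.factor_mk]
      exact Ideal.Quotient.eq_zero_iff_mem.mpr haP
  have hd3 : ringKrullDim S + 1 ≤ ringKrullDim S :=
    le_trans (le_trans (by gcongr) hd2) hdim
  -- `dim S` is a natural number
  have hbot : ringKrullDim S ≠ ⊥ := by
    intro h
    have h0 : (0 : WithBot ℕ∞) ≤ ringKrullDim S := ringKrullDim_nonneg_of_nontrivial
    rw [h] at h0
    exact absurd h0 (by simp)
  obtain ⟨n, hn⟩ : ∃ n : ℕ, ringKrullDim S = n := by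
    cases h : ringKrullDim S with
    | bot => exact absurd h hbot
    | coe c =>
      cases hc : c with
      | top => rw [h, hc] at hfin; exact absurd hfin (lt_irrefl _)
      | coe n => exact ⟨n, rfl⟩
  rw [hn] at hd3
  have : ((n + 1 : ℕ) : WithBot ℕ∞) ≤ (n : ℕ) := by
    simpa using hd3
  have h5 : n + 1 ≤ n := by exact_mod_cast this
  omega

/-- **Single-sided Ihara avoidance, commutative-algebra core.**
`S = S_∞` (domain of finite dimension), `R = R^χ_∞`, `M = M^χ_∞` finite over `S` with faithful
`S`-action and compatible `R`-action; `P₀` the characteristic-zero component of `R`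
(`dim R/P₀ ≤ dim S`); `s • M ⊆ lam • M`; `x : R → V` a point with values in a valuation ring,
lying on `P₀`, with `x lam ∤ x s`.  Contradiction. -/
theorem ia_single_false {S R M V : Type*} [CommRing S] [IsDomain S] [CommRing R]
    [Algebra S R] [AddCommGroup M] [Module S M] [Module R M] [IsScalarTower S R M]
    [Module.Finite S M] (hfaith : ∀ a : S, (∀ m : M, a • m = 0) → a = 0)
    (P₀ : Ideal R) [P₀.IsPrime]
    (hP₀ : ∀ P : Ideal R, P.IsPrime → P.comap (algebraMap S R) = ⊥ → P₀ ≤ P)
    (hdim : ringKrullDim (R ⧸ P₀) ≤ ringKrullDim S) (hfin : ringKrullDim S < ⊤)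
    (lam s : R) (hs : ∀ m : M, ∃ m' : M, s • m = lam • m')
    [CommRing V] [IsDomain V] [ValuationRing V] (x : R →+* V) (hx₀ : P₀ ≤ RingHom.ker x)
    (hx : ¬ x lam ∣ x s) : False := by
  haveI : Module.Finite R M := Module.Finite.of_restrictScalars_finite S R M
  exact hx (map_dvd_of_smul_le lam s hs x
    ((annihilator_le_of_dim_le hfaith P₀ hP₀ hdim hfin).trans hx₀))

/-- Ideal form of `ia_single_false`: a power of `s` lies in `(lam) + P₀`.  (So it suffices that
`s` is not nilpotent in `R ⧸ (lam, P₀)`, a computation in the special fibre.) -/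
theorem ia_single_pow_mem {S R M : Type*} [CommRing S] [IsDomain S] [CommRing R]
    [Algebra S R] [AddCommGroup M] [Module S M] [Module R M] [IsScalarTower S R M]
    [Module.Finite S M] (hfaith : ∀ a : S, (∀ m : M, a • m = 0) → a = 0)
    (P₀ : Ideal R) [P₀.IsPrime]
    (hP₀ : ∀ P : Ideal R, P.IsPrime → P.comap (algebraMap S R) = ⊥ → P₀ ≤ P)
    (hdim : ringKrullDim (R ⧸ P₀) ≤ ringKrullDim S) (hfin : ringKrullDim S < ⊤)
    (lam s : R) (hs : ∀ m : M, ∃ m' : M, s • m = lam • m') :
    ∃ n : ℕ, s ^ n ∈ Ideal.span {lam} ⊔ P₀ := by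
  haveI : Module.Finite R M := Module.Finite.of_restrictScalars_finite S R M
  obtain ⟨n, hn⟩ := exists_pow_mem_sup_annihilator (M := M) lam s hs
  exact ⟨n, (sup_le_sup_left (annihilator_le_of_dim_le hfaith P₀ hP₀ hdim hfin) _) hn⟩

/-- The domain case `P₀ = ⊥`. -/
theorem ia_single_false_of_isDomain {S R M V : Type*} [CommRing S] [IsDomain S] [CommRing R]
    [IsDomain R] [Algebra S R] [AddCommGroup M] [Module S M] [Module R M] [IsScalarTower S R M]
    [Module.Finite S M] (hfaith : ∀ a : S, (∀ m : M, a • m = 0) → a = 0)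
    (hdim : ringKrullDim R ≤ ringKrullDim S) (hfin : ringKrullDim S < ⊤)
    (lam s : R) (hs : ∀ m : M, ∃ m' : M, s • m = lam • m')
    [CommRing V] [IsDomain V] [ValuationRing V] (x : R →+* V)
    (hx : ¬ x lam ∣ x s) : False := by
  haveI : (⊥ : Ideal R).IsPrime := Ideal.isPrime_bot
  refine ia_single_false (S := S) (M := M) hfaith (⊥ : Ideal R) (fun _ _ _ => bot_le) ?_ hfin
    lam s hs x bot_le hx
  rw [ringKrullDim_eq_of_ringEquiv (RingEquiv.quotientBot R)]
  exact hdim

end Fermat.Agent.S38.H901
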