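import Mathlib
import Fermat.Agent.S59.Patch.H967.Ulim
import Fermat.Agent.S38.H901.IANil
import Fermat.Agent.S38.H901.IASingle

/-!
# Row 37 (S38/S43), Ihara avoidance: single-sided patching in coordinates (helper901)

`exists_patched` : from levels `(φ n : S →+* A, ρ n : A →+* M_d(S ⧸ I ^ n))` with
`ρ n ∘ φ n = scalar`, `φ n lamS = lamA`, `ρ n s ∈ lamS · M_d` one gets
`Φ : S →+* A`, `P : A →+* M_d(S)` with the same properties (limits along the hyperfilter;
`S`, `A` adically complete with finite quotients, `A` local).  No compatibility between the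
levels and no "level 0" is required.

`ia_single_levels_false` : the complete commutative-algebra core of single-sided Ihara avoidance:
levels + local data (`P₀`, dimension bound, explicit point) give `False`.
-/

set_option autoImplicit false
set_option linter.unnecessarySimpa false
set_option linter.style.haveILetI false
set_option linter.unusedSectionVars false

namespace Fermat.Agent.S38.H901

open IsLocalRing Filter Fermat.Agent.S59.Patch.H967

section Patch

variable {S A : Type*} [CommRing S] [CommRing A] [IsLocalRing A] {I : Ideal S} {d : ℕ}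

/-- An entrywise lift of a matrix over `S ⧸ J`. -/
noncomputable def liftMat (J : Ideal S) (m : Matrix (Fin d) (Fin d) (S ⧸ J)) :
    Matrix (Fin d) (Fin d) S :=
  fun i j => (Ideal.Quotient.mk_surjective (m i j)).choose

theorem mk_liftMat (J : Ideal S) (m : Matrix (Fin d) (Fin d) (S ⧸ J)) (i j : Fin d) :
    Ideal.Quotient.mk J (liftMat J m i j) = m i j :=
  (Ideal.Quotient.mk_surjective (m i j)).choose_spec

theorem liftMat_sub_mem (J : Ideal S) (m : Matrix (Fin d) (Fin d) (S ⧸ J)) (i j : Fin d)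
    (c : S) (hc : Ideal.Quotient.mk J c = m i j) : liftMat J m i j - c ∈ J := by
  rw [← Ideal.Quotient.eq, mk_liftMat, hc]

variable (hS : IsProfiniteAdic I) (ρ : ∀ n, A →+* Matrix (Fin d) (Fin d) (S ⧸ I ^ n))

/-- The limit of the matrices `ρ n a` along the hyperfilter. -/
noncomputable def limMat (a : A) : Matrix (Fin d) (Fin d) S :=
  fun i j => ulim hS (fun n => liftMat (I ^ n) (ρ n a) i j)

theorem limMat_eq_of_mem (a : A) (c : ℕ → Matrix (Fin d) (Fin d) S)
    (hc : ∀ n i j, Ideal.Quotient.mk (I ^ n) (c n i j) = ρ n a i j) (i j : Fin d) :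
    limMat hS ρ a i j = ulim hS (fun n => c n i j) :=
  ulim_congr_of_mem_pow hS fun n => liftMat_sub_mem (I ^ n) (ρ n a) i j (c n i j) (hc n i j)

/-- The limit representation. -/
noncomputable def limRep : A →+* Matrix (Fin d) (Fin d) S where
  toFun a := limMat hS ρ a
  map_one' := by
    ext i j
    rw [limMat_eq_of_mem hS ρ 1 (fun _ => 1) (fun n i j => by
      rw [map_one]
      by_cases h : i = j
      · subst h; simp
      · simp [Matrix.one_apply_ne h]) i j]
    exact ulim_const hS _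
  map_zero' := by
    ext i j
    rw [limMat_eq_of_mem hS ρ 0 (fun _ => 0) (fun n i j => by simp) i j]
    exact ulim_const hS _
  map_add' a b := by
    ext i j
    rw [limMat_eq_of_mem hS ρ (a + b)
      (fun n => liftMat (I ^ n) (ρ n a) + liftMat (I ^ n) (ρ n b)) (fun n i j => by
        rw [map_add, Matrix.add_apply, Matrix.add_apply, map_add, mk_liftMat, mk_liftMat]) i j]
    simp only [Matrix.add_apply]
    exact ulim_add hS _ _
  map_mul' a b := by
    ext i j
    rw [limMat_eq_of_mem hS ρ (a * b)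
      (fun n => liftMat (I ^ n) (ρ n a) * liftMat (I ^ n) (ρ n b)) (fun n i j => by
        rw [map_mul, Matrix.mul_apply, Matrix.mul_apply, map_sum]
        apply Finset.sum_congr rfl
        intro k _
        rw [map_mul, mk_liftMat, mk_liftMat]) i j]
    simp only [Matrix.mul_apply]
    rw [ulim_sum hS]
    apply Finset.sum_congr rfl
    intro k _
    exact ulim_mul hS _ _

theorem limRep_apply (a : A) (i j : Fin d) :
    limRep hS ρ a i j = ulim hS (fun n => liftMat (I ^ n) (ρ n a) i j) := rfl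

/-- The entries of `ρ n a` vanish modulo `I ^ k` (`k ≤ n`) for `a` in a fixed power of `𝔪_A`. -/
theorem liftMat_mem_of_mem_pow (hS : IsProfiniteAdic I) (k n : ℕ) (hkn : k ≤ n) (a : A)
    (ha : a ∈ maximalIdeal A ^ (Nat.card (Matrix (Fin d) (Fin d) (S ⧸ I ^ k)))) (i j : Fin d) :
    liftMat (I ^ n) (ρ n a) i j ∈ I ^ k := by
  haveI : Finite (S ⧸ I ^ k) := hS.fin k
  haveI : Finite (Matrix (Fin d) (Fin d) (S ⧸ I ^ k)) :=
    inferInstanceAs (Finite (Fin d → Fin d → S ⧸ I ^ k))
  have hle : I ^ n ≤ I ^ k := Ideal.pow_le_pow_right hkn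
  let red : Matrix (Fin d) (Fin d) (S ⧸ I ^ n) →+* Matrix (Fin d) (Fin d) (S ⧸ I ^ k) :=
    (Ideal.Quotient.factor hle).mapMatrix
  have h0 : (red.comp (ρ n)) a = 0 := by
    have := maximalIdeal_pow_card_le_ker (red.comp (ρ n)) ha
    exact this
  have h1 : Ideal.Quotient.factor hle (ρ n a i j) = 0 := by
    have := congrFun (congrFun h0 i) j
    simpa [red] using this
  rw [← mk_liftMat (I ^ n) (ρ n a) i j, Ideal.Quotient.factor_mk] at h1
  exact Ideal.Quotient.eq_zero_iff_mem.mp h1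

/-- **Single-sided patching in coordinates.** -/
theorem exists_patched (hS : IsProfiniteAdic I) (hA : IsProfiniteAdic (maximalIdeal A))
    (lamS : S) (lamA s : A) (φ : ℕ → S →+* A)
    (ρ : ∀ n, A →+* Matrix (Fin d) (Fin d) (S ⧸ I ^ n))
    (hlam : ∀ n, φ n lamS = lamA)
    (hscal : ∀ n f, ρ n (φ n f) = Matrix.scalar (Fin d) (Ideal.Quotient.mk (I ^ n) f))
    (hs : ∀ n, ∃ B : Matrix (Fin d) (Fin d) (S ⧸ I ^ n),
      ρ n s = Ideal.Quotient.mk (I ^ n) lamS • B) :
    ∃ (Φ : S →+* A) (P : A →+* Matrix (Fin d) (Fin d) S),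
      Φ lamS = lamA ∧ (∀ f, P (Φ f) = Matrix.scalar (Fin d) f) ∧
        ∃ B : Matrix (Fin d) (Fin d) S, P s = lamS • B := by
  classical
  let Φ : S →+* A := (ulimHom hA).comp (RingHom.pi φ)
  have hΦ : ∀ f, Φ f = ulim hA (fun n => φ n f) := fun f => rfl
  refine ⟨Φ, limRep hS ρ, ?_, ?_, ?_⟩
  · rw [hΦ]
    have : (fun n => φ n lamS) = fun _ => lamA := funext hlam
    rw [this]
    exact ulim_const hA lamA
  · intro f
    ext i j
    rw [limRep_apply]
    apply IsUlim.eq_ulim hS
    intro k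
    have hΦu := isUlim_ulim hA (fun n => φ n f)
      (Nat.card (Matrix (Fin d) (Fin d) (S ⧸ I ^ k)))
    have hge : ∀ᶠ n in ((hyperfilter ℕ : Ultrafilter ℕ) : Filter ℕ), k ≤ n :=
      Nat.hyperfilter_le_atTop (eventually_ge_atTop k)
    filter_upwards [hΦu, hge] with n hn hkn
    -- `Φ f - φ n f ∈ 𝔪 ^ K`
    have hmem : Φ f - φ n f ∈
        maximalIdeal A ^ (Nat.card (Matrix (Fin d) (Fin d) (S ⧸ I ^ k))) := by
      have : Φ f - φ n f = -(φ n f - ulim hA (fun n => φ n f)) := by rw [hΦ]; ring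
      rw [this]
      exact Ideal.neg_mem_iff _ |>.mpr hn
    have h1 := liftMat_mem_of_mem_pow ρ hS k n hkn (Φ f - φ n f) hmem i j
    -- compare lifts
    have hle : I ^ n ≤ I ^ k := Ideal.pow_le_pow_right hkn
    have h2 : liftMat (I ^ n) (ρ n (Φ f)) i j -
        (liftMat (I ^ n) (ρ n (Φ f - φ n f)) i j + Matrix.scalar (Fin d) f i j) ∈ I ^ n := by
      rw [← Ideal.Quotient.eq, map_add, mk_liftMat, mk_liftMat, map_sub, Matrix.sub_apply,
        hscal n f]
      have : Ideal.Quotient.mk (I ^ n) (Matrix.scalar (Fin d) f i j) =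
          Matrix.scalar (Fin d) (Ideal.Quotient.mk (I ^ n) f) i j := by
        by_cases h : i = j
        · subst h; simp
        · simp [Matrix.scalar_apply, Matrix.diagonal_apply_ne _ h]
      rw [this]
      ring
    have h3 : liftMat (I ^ n) (ρ n (Φ f)) i j - Matrix.scalar (Fin d) f i j =
        (liftMat (I ^ n) (ρ n (Φ f)) i j -
          (liftMat (I ^ n) (ρ n (Φ f - φ n f)) i j + Matrix.scalar (Fin d) f i j)) +
        liftMat (I ^ n) (ρ n (Φ f - φ n f)) i j := by ring
    rw [h3]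
    exact Ideal.add_mem _ (hle h2) h1
  · choose B hB using hs
    refine ⟨Matrix.of (fun i j => ulim hS (fun n => liftMat (I ^ n) (B n) i j)), ?_⟩
    ext i j
    rw [limRep_apply, Matrix.smul_apply, smul_eq_mul, Matrix.of_apply]
    have h1 : ulim hS (fun n => liftMat (I ^ n) (ρ n s) i j) =
        ulim hS (fun n => lamS * liftMat (I ^ n) (B n) i j) := by
      apply ulim_congr_of_mem_pow hS
      intro n
      rw [← Ideal.Quotient.eq, mk_liftMat, map_mul, mk_liftMat, hB n, Matrix.smul_apply,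
        smul_eq_mul]
    rw [h1, ulim_mul hS, ulim_const hS]

end Patch

/-- The contradiction for a patched object in coordinates. -/
theorem ia_single_patched_false {S A V : Type*} [CommRing S] [IsDomain S] [CommRing A]
    (hfin : ringKrullDim S < ⊤) {d : ℕ} (hd : 0 < d)
    (lamS : S) (hlamS : lamS ≠ 0) (lamA s : A)
    (P₀ : Ideal A) [P₀.IsPrime] (hP₀ : ∀ P : Ideal A, P.IsPrime → lamA ∉ P → P₀ ≤ P)
    (hdim : ringKrullDim (A ⧸ P₀) ≤ ringKrullDim S)
    (Φ : S →+* A) (P : A →+* Matrix (Fin d) (Fin d) S)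
    (h1 : Φ lamS = lamA) (h2 : ∀ f, P (Φ f) = Matrix.scalar (Fin d) f)
    (B : Matrix (Fin d) (Fin d) S) (hB : P s = lamS • B)
    [CommRing V] [IsDomain V] [ValuationRing V] (x : A →+* V) (hx₀ : P₀ ≤ RingHom.ker x)
    (hx : ¬ x lamA ∣ x s) : False := by
  classical
  letI : Algebra S A := Φ.toAlgebra
  have halg : ∀ f : S, algebraMap S A f = Φ f := fun f => rfl
  let P' : A →+* Module.End S (Fin d → S) :=
    ((Matrix.toLinAlgEquiv' : Matrix (Fin d) (Fin d) S ≃ₐ[S] _).toAlgHom.toRingHom).comp P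
  letI : Module A (Fin d → S) := Module.compHom (Fin d → S) P'
  have hsmul : ∀ (a : A) (m : Fin d → S), a • m = (P a).mulVec m := by
    intro a m
    show (P' a) m = _
    simp [P', Matrix.toLinAlgEquiv'_apply]
  haveI : IsScalarTower S A (Fin d → S) := by
    refine ⟨fun f a m => ?_⟩
    rw [hsmul, hsmul, Algebra.smul_def, halg, map_mul, h2, ← Matrix.mulVec_mulVec]
    ext i
    simp [Matrix.mulVec, dotProduct, Matrix.scalar_apply, Matrix.diagonal_apply,
      Finset.sum_ite_eq]
  have hfaith : ∀ a : S, (∀ m : Fin d → S, a • m = 0) → a = 0 := by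
    intro a ha
    have := congrFun (ha (fun _ => 1)) ⟨0, hd⟩
    simpa using this
  have hP₀' : ∀ Q : Ideal A, Q.IsPrime → Q.comap (algebraMap S A) = ⊥ → P₀ ≤ Q := by
    intro Q hQ hQS
    apply hP₀ Q hQ
    intro hmem
    apply hlamS
    have : lamS ∈ Q.comap (algebraMap S A) := by
      rw [Ideal.mem_comap, halg, h1]
      exact hmem
    rw [hQS] at this
    exact this
  have hs' : ∀ m : Fin d → S, ∃ m' : Fin d → S, s • m = lamA • m' := by
    intro m
    refine ⟨B.mulVec m, ?_⟩
    rw [hsmul, hsmul, hB, ← h1, h2, Matrix.smul_mulVec]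
    ext i
    simp [Matrix.mulVec, dotProduct, Matrix.scalar_apply, Matrix.diagonal_apply,
      Finset.sum_ite_eq]
  exact ia_single_false (S := S) (R := A) (M := Fin d → S) hfaith P₀ hP₀' hdim hfin lamA s hs'
    x hx₀ hx

/-- Ideal form of `ia_single_patched_false`: a power of `s` lies in `(lamA) + P₀`. -/
theorem ia_single_patched_pow_mem {S A : Type*} [CommRing S] [IsDomain S] [CommRing A]
    (hfin : ringKrullDim S < ⊤) {d : ℕ} (hd : 0 < d)
    (lamS : S) (hlamS : lamS ≠ 0) (lamA s : A)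
    (P₀ : Ideal A) [P₀.IsPrime] (hP₀ : ∀ P : Ideal A, P.IsPrime → lamA ∉ P → P₀ ≤ P)
    (hdim : ringKrullDim (A ⧸ P₀) ≤ ringKrullDim S)
    (Φ : S →+* A) (P : A →+* Matrix (Fin d) (Fin d) S)
    (h1 : Φ lamS = lamA) (h2 : ∀ f, P (Φ f) = Matrix.scalar (Fin d) f)
    (B : Matrix (Fin d) (Fin d) S) (hB : P s = lamS • B) :
    ∃ n : ℕ, s ^ n ∈ Ideal.span {lamA} ⊔ P₀ := by
  classical
  letI : Algebra S A := Φ.toAlgebra
  have halg : ∀ f : S, algebraMap S A f = Φ f := fun f => rfl
  let P' : A →+* Module.End S (Fin d → S) :=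
    ((Matrix.toLinAlgEquiv' : Matrix (Fin d) (Fin d) S ≃ₐ[S] _).toAlgHom.toRingHom).comp P
  letI : Module A (Fin d → S) := Module.compHom (Fin d → S) P'
  have hsmul : ∀ (a : A) (m : Fin d → S), a • m = (P a).mulVec m := by
    intro a m
    show (P' a) m = _
    simp [P', Matrix.toLinAlgEquiv'_apply]
  haveI : IsScalarTower S A (Fin d → S) := by
    refine ⟨fun f a m => ?_⟩
    rw [hsmul, hsmul, Algebra.smul_def, halg, map_mul, h2, ← Matrix.mulVec_mulVec]
    ext i
    simp [Matrix.mulVec, dotProduct, Matrix.scalar_apply, Matrix.diagonal_apply,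
      Finset.sum_ite_eq]
  have hfaith : ∀ a : S, (∀ m : Fin d → S, a • m = 0) → a = 0 := by
    intro a ha
    have := congrFun (ha (fun _ => 1)) ⟨0, hd⟩
    simpa using this
  have hP₀' : ∀ Q : Ideal A, Q.IsPrime → Q.comap (algebraMap S A) = ⊥ → P₀ ≤ Q := by
    intro Q hQ hQS
    apply hP₀ Q hQ
    intro hmem
    apply hlamS
    have : lamS ∈ Q.comap (algebraMap S A) := by
      rw [Ideal.mem_comap, halg, h1]
      exact hmem
    rw [hQS] at this
    exact this
  have hs' : ∀ m : Fin d → S, ∃ m' : Fin d → S, s • m = lamA • m' := by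
    intro m
    refine ⟨B.mulVec m, ?_⟩
    rw [hsmul, hsmul, hB, ← h1, h2, Matrix.smul_mulVec]
    ext i
    simp [Matrix.mulVec, dotProduct, Matrix.scalar_apply, Matrix.diagonal_apply,
      Finset.sum_ite_eq]
  exact ia_single_pow_mem (S := S) (R := A) (M := Fin d → S) hfaith P₀ hP₀' hdim hfin lamA s hs'

/-- **Single-sided Ihara avoidance, ideal form**: levels give `s ^ n ∈ (lamA) + P₀`; so it
suffices that `s` is NOT nilpotent in the special fibre `A ⧸ (lamA, P₀)`. -/
theorem ia_single_levels_pow_mem {S A : Type*} [CommRing S] [IsDomain S] [CommRing A]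
    [IsLocalRing A] {I : Ideal S} (hS : IsProfiniteAdic I)
    (hA : IsProfiniteAdic (maximalIdeal A)) (hfin : ringKrullDim S < ⊤) {d : ℕ} (hd : 0 < d)
    (lamS : S) (hlamS : lamS ≠ 0) (lamA s : A)
    (P₀ : Ideal A) [P₀.IsPrime] (hP₀ : ∀ P : Ideal A, P.IsPrime → lamA ∉ P → P₀ ≤ P)
    (hdim : ringKrullDim (A ⧸ P₀) ≤ ringKrullDim S)
    (φ : ℕ → S →+* A) (ρ : ∀ n, A →+* Matrix (Fin d) (Fin d) (S ⧸ I ^ n))
    (hlam : ∀ n, φ n lamS = lamA)
    (hscal : ∀ n f, ρ n (φ n f) = Matrix.scalar (Fin d) (Ideal.Quotient.mk (I ^ n) f))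
    (hs : ∀ n, ∃ B : Matrix (Fin d) (Fin d) (S ⧸ I ^ n),
      ρ n s = Ideal.Quotient.mk (I ^ n) lamS • B) :
    ∃ n : ℕ, s ^ n ∈ Ideal.span {lamA} ⊔ P₀ := by
  obtain ⟨Φ, P, h1, h2, B, hB⟩ := exists_patched hS hA lamS lamA s φ ρ hlam hscal hs
  exact ia_single_patched_pow_mem hfin hd lamS hlamS lamA s P₀ hP₀ hdim Φ P h1 h2 B hB

/-- **Single-sided Ihara avoidance: the complete commutative-algebra core.**

* `S = S_∞` (a domain, adically complete with finite quotients, finite Krull dimension),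
* `A = R^χ_∞` (local, adically complete with finite quotients), `lamA ∈ A` the uniformiser,
  `s ∈ A` the Steinberg element (`tr Φ - ε(1+q)` or `q (tr Φ)² - (1+q)² det Φ`),
* `P₀` = the characteristic-zero component of `A` (`⊥` if `A` is a domain): contained in every
  prime not containing `lamA`, with `dim A/P₀ ≤ dim S`,
* levels: for every `n` a homomorphism `φ n : S → A` and an action `ρ n` of `A` on the free
  module `(S ⧸ I ^ n) ^ d` (`d > 0`) inducing the `S`-action, with `ρ n s ∈ lamS · M_d`,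
* a point `x : A → V` (valuation ring) on `P₀` with `x lamA ∤ x s`.

Then `False`. -/
theorem ia_single_levels_false {S A V : Type*} [CommRing S] [IsDomain S] [CommRing A]
    [IsLocalRing A] {I : Ideal S} (hS : IsProfiniteAdic I)
    (hA : IsProfiniteAdic (maximalIdeal A)) (hfin : ringKrullDim S < ⊤) {d : ℕ} (hd : 0 < d)
    (lamS : S) (hlamS : lamS ≠ 0) (lamA s : A)
    (P₀ : Ideal A) [P₀.IsPrime] (hP₀ : ∀ P : Ideal A, P.IsPrime → lamA ∉ P → P₀ ≤ P)
    (hdim : ringKrullDim (A ⧸ P₀) ≤ ringKrullDim S)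
    (φ : ℕ → S →+* A) (ρ : ∀ n, A →+* Matrix (Fin d) (Fin d) (S ⧸ I ^ n))
    (hlam : ∀ n, φ n lamS = lamA)
    (hscal : ∀ n f, ρ n (φ n f) = Matrix.scalar (Fin d) (Ideal.Quotient.mk (I ^ n) f))
    (hs : ∀ n, ∃ B : Matrix (Fin d) (Fin d) (S ⧸ I ^ n),
      ρ n s = Ideal.Quotient.mk (I ^ n) lamS • B)
    [CommRing V] [IsDomain V] [ValuationRing V] (x : A →+* V) (hx₀ : P₀ ≤ RingHom.ker x)
    (hx : ¬ x lamA ∣ x s) : False := by
  obtain ⟨Φ, P, h1, h2, B, hB⟩ := exists_patched hS hA lamS lamA s φ ρ hlam hscal hs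
  exact ia_single_patched_false hfin hd lamS hlamS lamA s P₀ hP₀ hdim Φ P h1 h2 B hB x hx₀ hx

end Fermat.Agent.S38.H901
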