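import Mathlib
import Fermat.Agent.S38.H901.IAPatch

/-!
# Row 37 (S38/S43), Ihara avoidance: module-theoretic levels (helper901)

`IALevel S A J d lamS lamA s` is the finite-level input of single-sided Ihara avoidance in the
style of the Prelude's `Algebra.PatchingLevel`: an `A`-module `N` (think `M^χ_{Q_n}`, `A = R^χ_∞`
acting through `R^χ_{Q_n}`), a homomorphism `φ : S → A` (`S = 𝒪⟦y⟧`, `y_i ↦` a lift of
`δ_i - 1`), and `b : Fin d → N` which is a basis of `N` over `S ⧸ J` (`b_span`, `b_rel`), such that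
`s • N ⊆ lamA • N`.

`IALevel.exists_rep` turns a level with `J ≤ I ^ n` into the coordinate data of
`exists_patched`; `ia_single_of_ialevels` is the resulting contradiction.
-/

set_option autoImplicit false
set_option linter.unnecessarySimpa false
set_option linter.style.haveILetI false
set_option linter.unusedSectionVars false

namespace Fermat.Agent.S38.H901

open IsLocalRing Fermat.Agent.S59.Patch.H967

universe u v w

/-- A finite level of single-sided Ihara avoidance (module-theoretic form). -/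
structure IALevel (S : Type u) (A : Type v) [CommRing S] [CommRing A] (J : Ideal S) (d : ℕ)
    (lamS : S) (lamA s : A) : Type (max u v (w + 1)) where
  /-- the module `M^χ_Q` -/
  N : Type w
  [instAddCommGroup : AddCommGroup N]
  [instModule : Module A N]
  /-- the structure map `S → A` at this level -/
  φ : S →+* A
  φ_lam : φ lamS = lamA
  /-- a basis of `N` over `S ⧸ J` -/
  b : Fin d → N
  b_span : ∀ x : N, ∃ c : Fin d → S, x = ∑ i, φ (c i) • b i
  b_rel : ∀ c : Fin d → S, ∑ i, φ (c i) • b i = 0 ↔ ∀ i, c i ∈ J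
  /-- the Steinberg element is divisible by the uniformiser on `N` -/
  s_smul : ∀ x : N, ∃ y : N, s • x = lamA • y

attribute [instance] IALevel.instAddCommGroup IALevel.instModule

namespace IALevel

variable {S : Type u} {A : Type v} [CommRing S] [CommRing A] {J : Ideal S} {d : ℕ}
  {lamS : S} {lamA s : A} (L : IALevel.{u, v, w} S A J d lamS lamA s)

/-- The linear combination `∑ φ (c i) • b i`. -/
def comb (c : Fin d → S) : L.N := ∑ i, L.φ (c i) • L.b i

theorem comb_add (c c' : Fin d → S) : L.comb (c + c') = L.comb c + L.comb c' := by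
  simp only [comb, Pi.add_apply, map_add, add_smul, Finset.sum_add_distrib]

theorem comb_sub (c c' : Fin d → S) : L.comb (c - c') = L.comb c - L.comb c' := by
  simp only [comb, Pi.sub_apply, map_sub, sub_smul, Finset.sum_sub_distrib]

theorem comb_eq_iff (c c' : Fin d → S) : L.comb c = L.comb c' ↔ ∀ i, c i - c' i ∈ J := by
  rw [← sub_eq_zero, ← L.comb_sub]
  exact L.b_rel (c - c')

theorem smul_comb (a : A) (c : Fin d → S) :
    a • L.comb c = ∑ i, L.φ (c i) • (a • L.b i) := by
  simp only [comb, Finset.smul_sum, smul_smul, mul_comm]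

/-- Coordinates of `a • b j`. -/
noncomputable def coord (a : A) (j : Fin d) : Fin d → S := (L.b_span (a • L.b j)).choose

theorem comb_coord (a : A) (j : Fin d) : L.comb (L.coord a j) = a • L.b j :=
  ((L.b_span (a • L.b j)).choose_spec).symm

/-- If `a • b j = comb (c j)` for all `j`, then `a • comb e = comb (c *ᵥ e)`. -/
theorem smul_comb_eq (a : A) (c : Fin d → Fin d → S) (hc : ∀ j, a • L.b j = L.comb (c j))
    (e : Fin d → S) : a • L.comb e = L.comb (fun i => ∑ j, c j i * e j) := by
  rw [L.smul_comb]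
  simp only [hc, comb, Finset.smul_sum, smul_smul, map_sum, map_mul, Finset.sum_smul]
  rw [Finset.sum_comm]
  apply Finset.sum_congr rfl
  intro i _
  apply Finset.sum_congr rfl
  intro j _
  rw [mul_comm]

variable (I : Ideal S) (n : ℕ)

/-- The matrix of `a` modulo `K` (any ideal `K ≥ J`). -/
noncomputable def repMat (K : Ideal S) (a : A) : Matrix (Fin d) (Fin d) (S ⧸ K) :=
  fun i j => Ideal.Quotient.mk K (L.coord a j i)

theorem repMat_eq (K : Ideal S) (hJK : J ≤ K) (a : A) (c : Fin d → Fin d → S)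
    (hc : ∀ j, a • L.b j = L.comb (c j)) (i j : Fin d) :
    L.repMat K a i j = Ideal.Quotient.mk K (c j i) := by
  rw [repMat, Ideal.Quotient.eq]
  apply hJK
  have := (L.comb_eq_iff (L.coord a j) (c j)).mp (by rw [L.comb_coord, hc])
  exact this i

/-- The representation of `A` on `(S ⧸ K) ^ d` attached to a level, `J ≤ K`. -/
noncomputable def rep (K : Ideal S) (hJK : J ≤ K) : A →+* Matrix (Fin d) (Fin d) (S ⧸ K) where
  toFun a := L.repMat K a
  map_one' := by
    classical
    ext i j
    rw [L.repMat_eq K hJK 1 (fun j i => if i = j then 1 else 0) (fun j => by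
      simp [comb, Finset.sum_ite_eq']) i j]
    by_cases h : i = j
    · subst h; simp
    · simp [h, Matrix.one_apply_ne h]
  map_zero' := by
    ext i j
    rw [L.repMat_eq K hJK 0 (fun _ _ => 0) (fun j => by simp [comb]) i j]
    simp
  map_add' a a' := by
    ext i j
    rw [L.repMat_eq K hJK (a + a') (fun j => L.coord a j + L.coord a' j) (fun j => by
      rw [add_smul, L.comb_add, L.comb_coord, L.comb_coord]) i j]
    simp [repMat]
  map_mul' a a' := by
    ext i j
    rw [L.repMat_eq K hJK (a * a') (fun j i => ∑ k, L.coord a k i * L.coord a' j k) (fun j => by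
      rw [mul_smul, ← L.comb_coord a' j,
        L.smul_comb_eq a (fun k => L.coord a k) (fun k => (L.comb_coord a k).symm)]) i j]
    simp [repMat, Matrix.mul_apply, map_sum, map_mul]

theorem rep_apply (K : Ideal S) (hJK : J ≤ K) (a : A) (i j : Fin d) :
    L.rep K hJK a i j = Ideal.Quotient.mk K (L.coord a j i) := rfl

theorem rep_phi (K : Ideal S) (hJK : J ≤ K) (f : S) :
    L.rep K hJK (L.φ f) = Matrix.scalar (Fin d) (Ideal.Quotient.mk K f) := by
  classical
  ext i j
  show L.repMat K (L.φ f) i j = _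
  rw [L.repMat_eq K hJK (L.φ f) (fun j i => if i = j then f else 0) (fun j => by
    rw [comb, Finset.sum_eq_single j]
    · simp
    · intro i _ hij
      simp [hij]
    · intro h
      exact absurd (Finset.mem_univ j) h) i j]
  by_cases h : i = j
  · subst h; simp
  · simp [h, Matrix.scalar_apply]

theorem rep_s (K : Ideal S) (hJK : J ≤ K) :
    ∃ B : Matrix (Fin d) (Fin d) (S ⧸ K), L.rep K hJK s = Ideal.Quotient.mk K lamS • B := by
  classical
  have h1 : ∀ j, ∃ y : L.N, s • L.b j = lamA • y := fun j => L.s_smul (L.b j)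
  choose y hy using h1
  have h2 : ∀ j, ∃ e : Fin d → S, y j = L.comb e := fun j => L.b_span (y j)
  choose e he using h2
  refine ⟨Matrix.of (fun i j => Ideal.Quotient.mk K (e j i)), ?_⟩
  ext i j
  show L.repMat K s i j = _
  rw [L.repMat_eq K hJK s (fun j i => lamS * e j i) (fun j => by
    have h3 : lamA • L.comb (e j) = L.φ lamS • L.comb (e j) := by rw [L.φ_lam]
    rw [hy j, he j, h3]
    simp only [comb, Finset.smul_sum, smul_smul, map_mul]) i j]
  rw [Matrix.smul_apply, Matrix.of_apply, map_mul, smul_eq_mul]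

end IALevel

/-- **Single-sided Ihara avoidance from module-theoretic levels** (ideal form): if for every
`n` there is a level with relation ideal `J n ≤ I ^ n`, then a power of `s` lies in
`(lamA) + P₀`. -/
theorem ia_single_pow_mem_of_ialevels {S : Type u} {A : Type v} [CommRing S] [IsDomain S]
    [CommRing A] [IsLocalRing A] {I : Ideal S} (hS : IsProfiniteAdic I)
    (hA : IsProfiniteAdic (maximalIdeal A)) (hfin : ringKrullDim S < ⊤) {d : ℕ} (hd : 0 < d)
    (lamS : S) (hlamS : lamS ≠ 0) (lamA s : A)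
    (P₀ : Ideal A) [P₀.IsPrime] (hP₀ : ∀ P : Ideal A, P.IsPrime → lamA ∉ P → P₀ ≤ P)
    (hdim : ringKrullDim (A ⧸ P₀) ≤ ringKrullDim S)
    (J : ℕ → Ideal S) (hJ : ∀ n, J n ≤ I ^ n)
    (L : ∀ n, IALevel.{u, v, w} S A (J n) d lamS lamA s) :
    ∃ n : ℕ, s ^ n ∈ Ideal.span {lamA} ⊔ P₀ :=
  ia_single_levels_pow_mem hS hA hfin hd lamS hlamS lamA s P₀ hP₀ hdim
    (fun n => (L n).φ) (fun n => (L n).rep (I ^ n) (hJ n)) (fun n => (L n).φ_lam)
    (fun n f => (L n).rep_phi (I ^ n) (hJ n) f) (fun n => (L n).rep_s (I ^ n) (hJ n))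

/-- **Single-sided Ihara avoidance from module-theoretic levels** (point form). -/
theorem ia_single_false_of_ialevels {S : Type u} {A : Type v} {V : Type*} [CommRing S]
    [IsDomain S] [CommRing A] [IsLocalRing A] {I : Ideal S} (hS : IsProfiniteAdic I)
    (hA : IsProfiniteAdic (maximalIdeal A)) (hfin : ringKrullDim S < ⊤) {d : ℕ} (hd : 0 < d)
    (lamS : S) (hlamS : lamS ≠ 0) (lamA s : A)
    (P₀ : Ideal A) [P₀.IsPrime] (hP₀ : ∀ P : Ideal A, P.IsPrime → lamA ∉ P → P₀ ≤ P)
    (hdim : ringKrullDim (A ⧸ P₀) ≤ ringKrullDim S)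
    (J : ℕ → Ideal S) (hJ : ∀ n, J n ≤ I ^ n)
    (L : ∀ n, IALevel.{u, v, w} S A (J n) d lamS lamA s)
    [CommRing V] [IsDomain V] [ValuationRing V] (x : A →+* V) (hx₀ : P₀ ≤ RingHom.ker x)
    (hx : ¬ x lamA ∣ x s) : False :=
  ia_single_levels_false hS hA hfin hd lamS hlamS lamA s P₀ hP₀ hdim
    (fun n => (L n).φ) (fun n => (L n).rep (I ^ n) (hJ n)) (fun n => (L n).φ_lam)
    (fun n f => (L n).rep_phi (I ^ n) (hJ n) f) (fun n => (L n).rep_s (I ^ n) (hJ n)) x hx₀ hx

end Fermat.Agent.S38.H901
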